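import Fermat.Agent.MahlerClass.Elimination
import Mathlib.RingTheory.Polynomial.Eisenstein.Criterion
import Mathlib.RingTheory.Polynomial.GaussLemma
import Mathlib.Analysis.SpecialFunctions.Pow.Real
import Mathlib.FieldTheory.Minpoly.Field
import Mathlib.Analysis.SpecificLimits.Basic
import Mathlib.Data.Nat.Prime.Int

/-!
# Roots of lacunary series

`base = 2 + 4 ∑ 1 / den k` with `den k = 3 ^ (k + 1)!` has the approximants `num k / den k` with
`num k ≡ 2 (mod 4)`, so by Eisenstein their `(m + 1)`-st roots have degree `m + 1`, and a nonzero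
polynomial of degree `≤ m` and height `H` is at least a negative power of `H den k` there.
-/

set_option autoImplicit false

noncomputable section

open Finset Polynomial Matrix
open scoped Nat

namespace FA.LeVeque

open FA.MahlerClass

/-- The denominators. -/
def den (k : ℕ) : ℕ := 3 ^ (k + 1)!

/-- The numerators. -/
def num : ℕ → ℕ
  | 0 => 10
  | k + 1 => num k * den k ^ (k + 1) + 4

/-- The sum of the series. -/
def base : ℝ := 2 + ∑' j, 4 / (den j : ℝ)

theorem den_pos (k : ℕ) : 0 < den k := by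
  rw [den]
  positivity

theorem den_succ (k : ℕ) : den (k + 1) = den k ^ (k + 2) := by
  rw [den, den, ← pow_mul, Nat.factorial_succ (k + 1), mul_comm (k + 1 + 1)]

theorem three_mul_den_le (k : ℕ) : 3 * den k ≤ den (k + 1) := by
  rw [den, den, ← pow_succ']
  refine Nat.pow_le_pow_right (by norm_num) ?_
  rw [Nat.factorial_succ (k + 1)]
  nlinarith [Nat.factorial_pos (k + 1)]

theorem den_mono {i j : ℕ} (h : i ≤ j) : den i ≤ den j :=
  monotone_nat_of_le_succ (fun k => by linarith [three_mul_den_le k]) h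

theorem succ_le_den (k : ℕ) : k + 1 ≤ den k :=
  (Nat.self_le_factorial (k + 1)).trans (Nat.lt_pow_self (by norm_num)).le

theorem den_mul_pow_le (k j : ℕ) : den k * 3 ^ j ≤ den (k + j) := by
  induction j with
  | zero => simp
  | succ j ih =>
    calc den k * 3 ^ (j + 1) = 3 * (den k * 3 ^ j) := by ring
      _ ≤ 3 * den (k + j) := Nat.mul_le_mul_left 3 ih
      _ ≤ _ := three_mul_den_le (k + j)

theorem num_mod (k : ℕ) : num k % 4 = 2 := by
  induction k with
  | zero => rfl
  | succ k ih =>
    have hodd : (den k ^ (k + 1)) % 2 = 1 :=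
      Nat.odd_iff.1 ((Odd.pow (Odd.pow (by decide))))
    rw [num, Nat.add_mod_right, Nat.mul_mod, ih]
    omega

theorem summable_series : Summable fun j => 4 / (den j : ℝ) := by
  refine Summable.of_nonneg_of_le (fun j => by positivity) (fun j => ?_)
    ((summable_geometric_of_lt_one (r := (1 / 3 : ℝ)) (by norm_num) (by norm_num)).mul_left 4)
  rw [div_pow, one_pow, mul_one_div]
  refine div_le_div_of_nonneg_left (by norm_num) (by positivity) ?_
  have h := den_mul_pow_le 0 j
  rw [zero_add] at h
  have h' : 3 ^ j ≤ den j := (Nat.le_mul_of_pos_left _ (den_pos 0)).trans h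
  exact_mod_cast h'

theorem num_div_den (k : ℕ) :
    (num k : ℝ) / den k = 2 + ∑ j ∈ range (k + 1), 4 / (den j : ℝ) := by
  induction k with
  | zero =>
    rw [sum_range_one]
    simp [num, den]
    norm_num
  | succ k ih =>
    rw [sum_range_succ, ← add_assoc, ← ih, den_succ]
    have : (den k : ℝ) ≠ 0 := Nat.cast_ne_zero.2 (den_pos k).ne'
    rw [num]
    push_cast
    field_simp
    ring

theorem base_sub (k : ℕ) : base - num k / den k = ∑' j, 4 / (den (j + (k + 1)) : ℝ) := by
  rw [num_div_den, base, ← summable_series.sum_add_tsum_nat_add (k + 1)]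
  ring

theorem base_sub_pos (k : ℕ) : 0 < base - num k / den k := by
  rw [base_sub]
  exact ((summable_nat_add_iff (k + 1)).2 summable_series).tsum_pos (fun j => by positivity) 0
    (div_pos (by norm_num) (Nat.cast_pos.2 (den_pos _)))

theorem base_sub_le (k : ℕ) : base - num k / den k ≤ 6 / den (k + 1) := by
  have hg := (hasSum_geometric_of_lt_one (r := (1 / 3 : ℝ)) (by norm_num) (by norm_num)).mul_left
    (4 / (den (k + 1) : ℝ))
  rw [base_sub]
  refine ((summable_nat_add_iff (k + 1)).2 summable_series).tsum_le_tsum (fun j => ?_)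
    hg.summable |>.trans (le_of_eq (hg.tsum_eq.trans ?_))
  · have h := den_mul_pow_le (k + 1) j
    rw [add_comm (k + 1) j] at h
    rw [div_pow, one_pow, div_mul_div_comm, mul_one]
    refine div_le_div_of_nonneg_left (by norm_num)
      (mul_pos (Nat.cast_pos.2 (den_pos _)) (by positivity)) ?_
    exact_mod_cast h
  · rw [show (1 - 1 / 3 : ℝ)⁻¹ = 3 / 2 by norm_num]
    ring

theorem two_le_num_div_den (k : ℕ) : 2 ≤ (num k : ℝ) / den k := by
  rw [num_div_den]
  exact le_add_of_nonneg_right (sum_nonneg fun j _ => by positivity)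

theorem base_le_four : base ≤ 4 := by
  have h := base_sub_le 0
  rw [num_div_den, sum_range_one] at h
  simp [den] at h
  norm_num at h
  linarith

/-- The approximant of degree `m + 1`. -/
def root (m k : ℕ) : ℝ := ((num k : ℝ) / den k) ^ (((m + 1 : ℕ) : ℝ)⁻¹)

/-- The number of LeVeque. -/
def number (m : ℕ) : ℝ := base ^ (((m + 1 : ℕ) : ℝ)⁻¹)

theorem root_pow (m k : ℕ) : root m k ^ (m + 1) = (num k : ℝ) / den k :=
  Real.rpow_inv_natCast_pow (by positivity) (by omega)

theorem number_pow (m : ℕ) : number m ^ (m + 1) = base :=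
  Real.rpow_inv_natCast_pow (by linarith [base_sub_pos 0, two_le_num_div_den 0]) (by omega)

theorem one_le_root (m k : ℕ) : 1 ≤ root m k :=
  Real.one_le_rpow (by linarith [two_le_num_div_den k]) (by positivity)

theorem root_le_number (m k : ℕ) : root m k ≤ number m :=
  Real.rpow_le_rpow (by positivity) (by linarith [base_sub_pos k]) (by positivity)

theorem number_le_four (m : ℕ) : number m ≤ 4 := by
  refine le_trans ?_ base_le_four
  refine Real.rpow_le_self_of_one_le (by linarith [base_sub_pos 0, two_le_num_div_den 0]) ?_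
  rw [inv_le_one_iff₀]
  exact Or.inr (by exact_mod_cast Nat.le_add_left 1 m)

theorem number_sub_root_le (m k : ℕ) : number m - root m k ≤ 6 / den (k + 1) := by
  have h1 := one_le_root m k
  have h2 := root_le_number m k
  have key : number m - root m k ≤ number m ^ (m + 1) - root m k ^ (m + 1) := by
    have hp : 1 ≤ number m ^ m := one_le_pow₀ (h1.trans h2)
    have hq : root m k ^ m ≤ number m ^ m := pow_le_pow_left₀ (by linarith) h2 m
    rw [pow_succ, pow_succ]
    nlinarith [mul_le_mul_of_nonneg_right hp (sub_nonneg.2 h2)]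
  rw [number_pow, root_pow] at key
  exact key.trans (base_sub_le k)

theorem num_le (k : ℕ) : (num k : ℝ) ≤ 4 * den k := by
  have h : (num k : ℝ) / den k ≤ 4 := by linarith [base_sub_pos k, base_le_four]
  exact (div_le_iff₀ (Nat.cast_pos.2 (den_pos k))).1 h

/-- The relation of the approximant. -/
def rootRel (m k : ℕ) : Fin (m + 1) → ℤ := Pi.single 0 (num k : ℤ)

theorem rootRel_abs_le (m k : ℕ) (l : Fin (m + 1)) : |(rootRel m k l : ℝ)| ≤ 4 * den k := by
  rcases eq_or_ne l 0 with rfl | h
  · rw [rootRel, Pi.single_eq_same, Int.cast_natCast, Nat.abs_cast]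
    exact num_le k
  · rw [rootRel, Pi.single_eq_of_ne h]
    simp

/-- **The approximants have degree `m + 1`.** -/
theorem isMinRelation_root (m k : ℕ) :
    IsMinRelation (Int.castRingHom ℝ) (root m k) (den k : ℤ) (rootRel m k) := by
  have hq : (den k : ℝ) ≠ 0 := Nat.cast_ne_zero.2 (den_pos k).ne'
  refine ⟨by simpa using (den_pos k).ne', ?_, fun c hc => ?_⟩
  · rw [sum_eq_single 0 (fun l _ hl => by simp [rootRel, hl]) (by simp), root_pow]
    simp [rootRel]
    field_simp
  set β : ℝ := den k * root m k with hβ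
  set N : ℕ := num k * den k ^ m with hN
  have hβN : β ^ (m + 1) = (N : ℝ) := by
    rw [hβ, mul_pow, root_pow, hN, pow_succ]
    push_cast
    field_simp
  set f : ℤ[X] := X ^ (m + 1) - C (N : ℤ) with hf
  have hmon : f.Monic := monic_X_pow_sub_C _ (Nat.succ_ne_zero m)
  have hdeg : f.degree = ((m + 1 : ℕ) : WithBot ℕ) := degree_X_pow_sub_C (Nat.succ_pos m) _
  have hN4 : N % 4 = 2 := by
    have hodd : (den k ^ m) % 2 = 1 := Nat.odd_iff.1 (Odd.pow (Odd.pow (by decide)))
    rw [hN, Nat.mul_mod, num_mod]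
    omega
  have hirr : Irreducible f := by
    refine irreducible_of_eisenstein_criterion (P := Ideal.span {(2 : ℤ)})
      ((Ideal.span_singleton_prime (by norm_num)).2 Int.prime_two) ?_ (fun n hn => ?_)
      (by rw [hdeg]; exact_mod_cast Nat.succ_pos m) ?_ hmon.isPrimitive
    · rw [hmon.leadingCoeff, Ideal.mem_span_singleton]
      norm_num
    · rw [hdeg, Nat.cast_lt] at hn
      rw [Ideal.mem_span_singleton, hf, coeff_sub, coeff_X_pow, if_neg hn.ne, coeff_C]
      split_ifs with h
      · rw [zero_sub, dvd_neg]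
        exact_mod_cast (show 2 ∣ N by omega)
      · simp
    · rw [Ideal.span_singleton_pow, Ideal.mem_span_singleton, hf, coeff_sub, coeff_X_pow,
        if_neg (Nat.succ_ne_zero m).symm, coeff_C, if_pos rfl, zero_sub, dvd_neg,
        show (2 : ℤ) ^ 2 = ((4 : ℕ) : ℤ) by norm_num, Int.natCast_dvd_natCast]
      omega
  have hirrQ : Irreducible (f.map (Int.castRingHom ℚ)) :=
    hmon.isPrimitive.irreducible_iff_irreducible_map_fraction_map.1 hirr
  have hroot : aeval β (f.map (Int.castRingHom ℚ)) = 0 := by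
    rw [aeval_def, eval₂_map, hf]
    simp [hβN]
  have hmin : f.map (Int.castRingHom ℚ) = minpoly ℚ β :=
    minpoly.eq_of_irreducible_of_monic hirrQ hroot (hmon.map _)
  set g : ℚ[X] := ∑ l : Fin (m + 1), C ((c l : ℚ) * (den k : ℚ) ^ (m - (l : ℕ))) * X ^ (l : ℕ)
    with hg
  have hgroot : aeval β g = 0 := by
    rw [hg, map_sum]
    simp only [map_mul, map_pow, aeval_X, map_intCast, map_natCast]
    rw [sum_congr rfl (g := fun l : Fin (m + 1) =>
      (den k : ℝ) ^ m * ((c l : ℝ) * root m k ^ (l : ℕ))) fun l _ => ?_]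
    · rw [← mul_sum]
      simp only [eq_intCast] at hc
      rw [hc, mul_zero]
    · rw [hβ, mul_pow, show (den k : ℝ) ^ m = (den k : ℝ) ^ (m - (l : ℕ)) * (den k : ℝ) ^ (l : ℕ) by
        rw [← pow_add, Nat.sub_add_cancel (Nat.lt_succ_iff.1 l.isLt)]]
      ring
  have hg0 : g = 0 := by
    by_contra hne
    have h1 := minpoly.degree_le_of_ne_zero ℚ β hne hgroot
    have h2 : g.degree < ((m + 1 : ℕ) : WithBot ℕ) := by
      rw [hg]
      exact degree_sum_fin_lt _
    rw [← hmin, hmon.degree_map, hdeg] at h1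
    exact (h1.trans_lt h2).false
  intro l
  have hl := congrArg (fun P : ℚ[X] => P.coeff (l : ℕ)) hg0
  simp only [hg, finsetSum_coeff, coeff_C_mul, coeff_X_pow, coeff_zero, Fin.val_inj, mul_ite,
    mul_one, mul_zero, sum_ite_eq, mem_univ, if_true] at hl
  rw [mul_eq_zero, or_iff_left (pow_ne_zero _ (Nat.cast_ne_zero.2 (den_pos k).ne')),
    Int.cast_eq_zero] at hl
  simp [hl]

theorem abs_reduce_le (m k i : ℕ) (l : Fin (m + 1)) :
    |((reduce (den k : ℤ) (rootRel m k) i l : ℤ) : ℝ)| ≤ (8 * den k) ^ i := by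
  have hq : (0 : ℝ) ≤ den k := Nat.cast_nonneg _
  induction i generalizing l with
  | zero => rcases eq_or_ne l 0 with rfl | h <;> simp [reduce, *]
  | succ i ih =>
    have h1 : |((rootRel m k l : ℤ) : ℝ)| ≤ 4 * den k := rootRel_abs_le m k l
    simp only [reduce, Int.cast_add, Int.cast_mul]
    refine (abs_add_le _ _).trans ?_
    rw [pow_succ, show (8 : ℝ) * den k = 4 * den k + 4 * den k by ring, mul_add]
    refine add_le_add ?_ ?_
    · refine Fin.cases ?_ (fun j => ?_) l
      · simp
        positivity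
      · rw [Fin.cons_succ, Int.cast_mul, abs_mul, Int.cast_natCast, Nat.abs_cast, mul_comm]
        refine mul_le_mul ((ih _).trans (le_of_eq (by ring))) ?_ hq (by positivity)
        linarith
    · rw [abs_mul]
      exact mul_le_mul ((ih _).trans (le_of_eq (by ring))) h1 (abs_nonneg _) (by positivity)

/-- **The approximants are no near roots of polynomials of degree `≤ m`.** -/
theorem exists_lower_bound (m : ℕ) : ∃ C : ℝ, 1 ≤ C ∧ ∀ (k : ℕ) (p : Fin (m + 1) → ℤ), p ≠ 0 →
    1 ≤ C * (|polyEval p (root m k)| * (‖p‖ * den k) ^ (2 * m * (m + 1) + 1)) := by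
  set C : ℝ := (m.factorial : ℝ) * (((m : ℝ) + 1) * 8 ^ (2 * m)) ^ m * (((m : ℝ) + 1) * 4 ^ m)
    with hC
  have hC1 : 1 ≤ C := by
    have h1 : (1 : ℝ) ≤ m.factorial := Nat.one_le_cast.2 m.factorial_pos
    have h2 : (1 : ℝ) ≤ (((m : ℝ) + 1) * 8 ^ (2 * m)) ^ m := one_le_pow₀
      (one_le_mul_of_one_le_of_one_le (le_add_of_nonneg_left (Nat.cast_nonneg m))
        (one_le_pow₀ (by norm_num)))
    exact one_le_mul_of_one_le_of_one_le (one_le_mul_of_one_le_of_one_le h1 h2)
      (one_le_mul_of_one_le_of_one_le (le_add_of_nonneg_left (Nat.cast_nonneg m))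
        (one_le_pow₀ (by norm_num)))
  refine ⟨C, hC1, fun k p hp => ?_⟩
  have hrel := isMinRelation_root m k
  have hq : (1 : ℝ) ≤ den k := Nat.one_le_cast.2 (den_pos k)
  have hH : 1 ≤ ‖p‖ := Transference.one_le_norm_intVector hp
  set X : ℝ := ((m : ℝ) + 1) * ‖p‖ * (8 * den k) ^ (2 * m) with hX
  set M := (mulMatrix (den k : ℤ) (rootRel m k) p).map (Int.castRingHom ℝ) with hM
  have hent : ∀ i j, |M i j| ≤ X := fun i j => by
    rw [hM, Matrix.map_apply, mulMatrix, Matrix.of_apply, map_sum]
    refine (abs_sum_le_sum_abs _ _).trans ((sum_le_sum (g := fun _ : Fin (m + 1) =>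
      ‖p‖ * (8 * (den k : ℝ)) ^ (2 * m)) fun l _ => ?_).trans (le_of_eq ?_))
    · simp only [eq_intCast, Int.cast_mul, Int.cast_pow, Int.cast_natCast, Int.cast_id, abs_mul,
        abs_pow, Nat.abs_cast]
      refine mul_le_mul ?_ ?_ (by positivity) (norm_nonneg _)
      · rw [← Int.norm_eq_abs]
        exact norm_le_pi_norm p l
      · refine (mul_le_mul (b := (8 * (den k : ℝ)) ^ (m + m - ((l : ℕ) + i)))
          (pow_le_pow_left₀ (Nat.cast_nonneg _) (by linarith) _)
          (abs_reduce_le m k _ j) (abs_nonneg _) (by positivity)).trans (le_of_eq ?_)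
        rw [← pow_add]
        congr 1
        have := l.isLt
        have := i.isLt
        omega
    · rw [sum_const, card_univ, Fintype.card_fin, nsmul_eq_mul, hX]
      push_cast
      ring
  have hne : polyEval p (root m k) ≠ 0 := fun h0 => hp (funext fun l => by
    have := hrel.indep p (by simpa [polyEval] using h0) l
    simpa using this)
  have hdet : 1 ≤ |M.det| := by
    have h := map_det_mulMatrix_ne_zero (Int.castRingHom ℝ) (root m k) Int.cast_injective hrel
      (p := p) hne
    rw [hM, ← RingHom.mapMatrix_apply, ← RingHom.map_det, eq_intCast, ← Int.cast_abs]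
    rw [eq_intCast, Int.cast_ne_zero] at h
    exact_mod_cast Int.one_le_abs h
  have hX0 : 0 ≤ X := by rw [hX]; positivity
  set v : Fin (m + 1) → ℝ := fun l => root m k ^ (l : ℕ) with hv
  have hMv : M *ᵥ v = ((den k : ℝ) ^ (m + m) * polyEval p (root m k)) • v := funext fun j => by
    rw [hM, hv, map_mulMatrix_mulVec _ _ hrel, Pi.smul_apply, smul_eq_mul, map_natCast]
  have e : adjugate M *ᵥ (M *ᵥ v) = M.det • v := by
    rw [mulVec_mulVec, adjugate_mul, smul_mulVec, one_mulVec]
  rw [hMv, mulVec_smul] at e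
  have e0 : (den k : ℝ) ^ (m + m) * polyEval p (root m k) * (adjugate M *ᵥ v) 0 = M.det := by
    have := congrFun e 0
    simpa [hv] using this
  have hadj : |(adjugate M *ᵥ v) 0| ≤ (m.factorial : ℝ) * X ^ m * (((m : ℝ) + 1) * 4 ^ m) := by
    rw [mulVec, dotProduct]
    refine (abs_sum_le_sum_abs _ _).trans ((sum_le_sum (g := fun _ : Fin (m + 1) =>
      (m.factorial : ℝ) * X ^ m * 4 ^ m) fun l _ => ?_).trans (le_of_eq ?_))
    · rw [abs_mul, adjugate_fin_succ_eq_det_submatrix, abs_mul, abs_pow, abs_neg, abs_one,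
        one_pow, one_mul, hv, abs_pow, abs_of_pos (zero_lt_one.trans_le (one_le_root m k))]
      refine mul_le_mul (abs_det_le_of_abs_le fun i j => hent _ _) ?_
        (pow_nonneg (zero_le_one.trans (one_le_root m k)) _)
        (mul_nonneg (Nat.cast_nonneg _) (pow_nonneg hX0 _))
      exact (pow_le_pow_left₀ (by linarith [one_le_root m k])
        ((root_le_number m k).trans (number_le_four m)) _).trans
          (pow_le_pow_right₀ (by norm_num) (Nat.lt_succ_iff.1 l.isLt))
    · rw [sum_const, card_univ, Fintype.card_fin, nsmul_eq_mul]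
      push_cast
      ring
  rw [← e0, abs_mul, abs_mul, abs_pow, Nat.abs_cast] at hdet
  refine hdet.trans ((mul_le_mul_of_nonneg_left hadj (by positivity)).trans ?_)
  have e1 : (den k : ℝ) ^ (m + m) * |polyEval p (root m k)| *
      ((m.factorial : ℝ) * X ^ m * (((m : ℝ) + 1) * 4 ^ m)) =
      C * (|polyEval p (root m k)| * (‖p‖ ^ m * (den k : ℝ) ^ (2 * m * (m + 1)))) := by
    rw [hX, hC, show 2 * m * (m + 1) = (m + m) + 2 * m * m by ring, pow_add]
    simp only [mul_pow, ← pow_mul]
    ring
  rw [e1, mul_pow]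
  refine mul_le_mul_of_nonneg_left (mul_le_mul_of_nonneg_left (mul_le_mul
    (pow_le_pow_right₀ hH (by nlinarith)) (pow_le_pow_right₀ hq (by omega)) (by positivity)
    (by positivity)) (abs_nonneg _)) (by linarith)

end FA.LeVeque
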