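import Fermat.Agent.LeVeque.Approximants
import Fermat.Agent.MahlerClass.Classes

/-!
# U-numbers of every degree

`den k X ^ (m + 1) - num k` is tiny at `number m`; a polynomial of degree `≤ m` and height `H` is
compared with its value at the first approximant whose error is negligible against the lower bound,
so it is at least a negative power of `H` there.
-/

set_option autoImplicit false

noncomputable section

open Finset

namespace FA.LeVeque

open FA.MahlerClass

theorem abs_polyEval_sub_le (m k : ℕ) (p : Fin (m + 1) → ℤ) :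
    |polyEval p (number m) - polyEval p (root m k)| ≤
      ((m : ℝ) + 1) * (((m : ℝ) + 1) * 4 ^ m) * 6 * (‖p‖ / den (k + 1)) := by
  have h1 := one_le_root m k
  have h2 := root_le_number m k
  have h4 := number_le_four m
  have hd := number_sub_root_le m k
  rw [polyEval, polyEval, ← sum_sub_distrib]
  refine (abs_sum_le_sum_abs _ _).trans ((sum_le_sum (g := fun _ : Fin (m + 1) =>
    ‖p‖ * (6 / den (k + 1) * (((m : ℝ) + 1) * 4 ^ m))) fun l _ => ?_).trans (le_of_eq ?_))
  · rw [← mul_sub, abs_mul]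
    refine mul_le_mul ?_ ?_ (abs_nonneg _) (norm_nonneg _)
    · rw [← Int.norm_eq_abs]
      exact norm_le_pi_norm p l
    · refine (abs_pow_sub_pow_le _ _ _).trans ?_
      have hl : ((l : ℕ) : ℝ) ≤ (m : ℝ) + 1 := by exact_mod_cast l.isLt.le
      rw [abs_of_nonneg (sub_nonneg.2 h2), mul_assoc]
      refine mul_le_mul hd (mul_le_mul hl ?_ (by positivity) (by positivity)) (by positivity)
        (by positivity)
      refine (pow_le_pow_left₀ (le_max_iff.2 (Or.inl (abs_nonneg _))) (max_le ?_ ?_) _).trans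
        (pow_le_pow_right₀ (by norm_num) (by have := l.isLt; omega))
      · rw [abs_of_pos (by linarith)]
        exact h4
      · rw [abs_of_pos (by linarith)]
        linarith
  · rw [sum_const, card_univ, Fintype.card_fin, nsmul_eq_mul]
    push_cast
    ring

/-- **No small values in degree `≤ m`.** -/
theorem exists_poly_bound (m : ℕ) : ∃ (c : ℝ) (F : ℕ), 0 < c ∧
    ∀ p : Fin (m + 1) → ℤ, p ≠ 0 → c ≤ |polyEval p (number m)| * ‖p‖ ^ F := by
  obtain ⟨C₀, hC₀, hlow⟩ := exists_lower_bound m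
  set E := 2 * m * (m + 1) + 1 with hE
  set C₁ := ((m : ℝ) + 1) * (((m : ℝ) + 1) * 4 ^ m) * 6 with hC₁
  set A := max 1 (2 * C₀ * C₁) with hA
  set D := (den E : ℝ) * A ^ (E + 1) with hD
  have hA1 : 1 ≤ A := le_max_left _ _
  have hD0 : 0 < D := by
    have : (0 : ℝ) < den E := Nat.cast_pos.2 (den_pos E)
    positivity
  refine ⟨1 / (2 * C₀ * D ^ E), ((E + 1) * (E + 1) + 1) * E, by positivity, fun p hp => ?_⟩
  set H := ‖p‖ with hH
  have hH1 : 1 ≤ H := Transference.one_le_norm_intVector hp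
  have hH0 : 0 < H := zero_lt_one.trans_le hH1
  have hden : ∀ k, (1 : ℝ) ≤ den k := fun k => Nat.one_le_cast.2 (den_pos k)
  have hex : ∃ k, E ≤ k ∧ A * H ^ (E + 1) < (den k : ℝ) ^ (k + 2 - E) := by
    obtain ⟨k, hk⟩ := exists_nat_gt (A * H ^ (E + 1))
    refine ⟨max k E, le_max_right _ _, hk.trans_le (le_trans ?_ (le_self_pow₀ (hden _) (by omega)))⟩
    exact_mod_cast (le_max_left k E).trans ((Nat.le_succ _).trans (succ_le_den _))
  set k := Nat.find hex
  obtain ⟨hEk, hcond⟩ := Nat.find_spec hex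
  have hqk : (den k : ℝ) ≤ D * H ^ ((E + 1) * (E + 1)) := by
    have hAH : 1 ≤ A * H ^ (E + 1) := one_le_mul_of_one_le_of_one_le hA1 (one_le_pow₀ hH1)
    rw [hD, mul_assoc, pow_mul, ← mul_pow]
    rcases eq_or_lt_of_le hEk with he | he
    · exact (le_of_eq (congrArg (fun i => (den i : ℝ)) he.symm)).trans
        (le_mul_of_one_le_right (Nat.cast_nonneg _) (one_le_pow₀ hAH))
    · obtain ⟨j, hj⟩ : ∃ j, k = j + 1 := ⟨k - 1, by omega⟩
      have hfail : (den j : ℝ) ^ (j + 2 - E) ≤ A * H ^ (E + 1) := not_lt.1 fun hlt =>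
        Nat.find_min hex (show j < k by omega) ⟨by omega, hlt⟩
      refine le_trans ?_ (le_mul_of_one_le_left (by positivity) (hden E))
      rw [hj, den_succ]
      push_cast
      calc (den j : ℝ) ^ (j + 2) ≤ ((den j : ℝ) ^ (j + 2 - E)) ^ (E + 1) := by
            rw [← pow_mul]
            refine pow_le_pow_right₀ (hden j) ?_
            obtain ⟨t, ht⟩ : ∃ t, j + 2 - E = t + 1 := ⟨j + 1 - E, by omega⟩
            have he' : j + 2 = E + (t + 1) := by omega
            rw [ht, he']
            nlinarith [Nat.zero_le (t * E)]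
        _ ≤ _ := pow_le_pow_left₀ (by positivity) hfail _
  have hlow' : 1 ≤ C₀ * (|polyEval p (root m k)| * (H * den k) ^ E) := hlow k p hp
  have hdiff := abs_polyEval_sub_le m k p
  rw [← hC₁, ← hH] at hdiff
  have hdiff' : |polyEval p (number m) - polyEval p (root m k)| * (C₀ * (H * den k) ^ E) ≤
      1 / 2 := by
    refine (mul_le_mul_of_nonneg_right hdiff (by positivity)).trans ?_
    have hq : (0 : ℝ) < den k := Nat.cast_pos.2 (den_pos k)
    have hAle : 2 * C₀ * C₁ * H ^ (E + 1) ≤ (den k : ℝ) ^ (k + 2 - E) :=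
      (mul_le_mul_of_nonneg_right (le_max_right _ _) (by positivity)).trans hcond.le
    have hmul := mul_le_mul_of_nonneg_right hAle (pow_nonneg hq.le E)
    rw [← pow_add, Nat.sub_add_cancel (hEk.trans (by omega))] at hmul
    rw [den_succ]
    push_cast
    rw [mul_pow, mul_div, div_mul_eq_mul_div, div_le_iff₀ (pow_pos hq _)]
    rw [pow_succ H E] at hmul
    linarith
  have htri : |polyEval p (root m k)| ≤ |polyEval p (number m)| +
      |polyEval p (number m) - polyEval p (root m k)| := by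
    have := abs_sub_abs_le_abs_sub (polyEval p (root m k)) (polyEval p (number m))
    rw [abs_sub_comm] at this
    linarith
  have hmain : 1 / 2 ≤ |polyEval p (number m)| * (C₀ * (H * den k) ^ E) := by
    have := mul_le_mul_of_nonneg_right htri (show 0 ≤ C₀ * (H * den k) ^ E by positivity)
    linarith
  have hbound : (H * den k) ^ E ≤ D ^ E * H ^ (((E + 1) * (E + 1) + 1) * E) := by
    refine (pow_le_pow_left₀ (by positivity) (mul_le_mul_of_nonneg_left hqk hH0.le) E).trans
      (le_of_eq ?_)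
    simp only [mul_pow, ← pow_mul]
    rw [add_mul, one_mul, pow_add]
    ring
  have := hmain.trans (mul_le_mul_of_nonneg_left
    (mul_le_mul_of_nonneg_left hbound (by linarith)) (abs_nonneg _))
  rw [div_le_iff₀ (by positivity)]
  linarith

/-- **The exponent is finite in degree `≤ m`.** -/
theorem mahlerExp_number_lt_top (m : ℕ) : mahlerExp m (number m) < ⊤ := by
  obtain ⟨c, F, hc, hb⟩ := exists_poly_bound m
  refine lt_of_le_of_lt ((mahlerExp_le_iff (B := (F : ℝ))).2 fun w hw => ?_) (EReal.coe_lt_top _)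
  refine (isCompact_closedBall (0 : Fin (m + 1) → ℤ) ((1 / c) ^ (w - F)⁻¹)).finite_of_discrete
    |>.subset fun p hp => ?_
  have hne := ne_zero_of_mem hp
  have hH : 1 ≤ ‖p‖ := Transference.one_le_norm_intVector hne
  have hH0 : 0 < ‖p‖ := zero_lt_one.trans_le hH
  have h := (hb p hne).trans (mul_le_mul_of_nonneg_right hp.2 (by positivity))
  rw [← Real.rpow_natCast ‖p‖ F, ← Real.rpow_add hH0, show -w + (F : ℝ) = -(w - F) by ring,
    Real.rpow_neg hH0.le] at h
  have hpow : ‖p‖ ^ (w - F) ≤ 1 / c := by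
    rw [le_div_iff₀ hc]
    calc ‖p‖ ^ (w - F) * c ≤ ‖p‖ ^ (w - F) * (‖p‖ ^ (w - F))⁻¹ :=
          mul_le_mul_of_nonneg_left h (by positivity)
      _ = 1 := mul_inv_cancel₀ (by positivity)
  rw [mem_closedBall_zero_iff]
  calc ‖p‖ = (‖p‖ ^ (w - F)) ^ (w - F)⁻¹ :=
        (Real.rpow_rpow_inv hH0.le (sub_ne_zero.2 hw.ne')).symm
    _ ≤ _ := Real.rpow_le_rpow (by positivity) hpow (inv_nonneg.2 (sub_nonneg.2 hw.le))

/-- The polynomial `den k X ^ (m + 1) - num k`. -/
def relPoly (m k : ℕ) : Fin (m + 1 + 1) → ℤ :=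
  Fin.snoc (fun l : Fin (m + 1) => -rootRel m k l) (den k : ℤ)

theorem polyEval_relPoly (m k : ℕ) :
    polyEval (relPoly m k) (number m) = den k * (base - num k / den k) := by
  have hq : (den k : ℝ) ≠ 0 := Nat.cast_ne_zero.2 (den_pos k).ne'
  rw [polyEval, Fin.sum_univ_castSucc]
  simp only [relPoly, Fin.snoc_castSucc, Fin.snoc_last, Fin.val_castSucc, Fin.val_last,
    Int.cast_neg, Int.cast_natCast, number_pow]
  rw [sum_eq_single 0 (fun l _ hl => by simp [rootRel, hl]) (by simp)]
  simp [rootRel]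
  field_simp
  ring

theorem norm_relPoly_le (m k : ℕ) : ‖relPoly m k‖ ≤ 4 * den k := by
  refine (pi_norm_le_iff_of_nonneg (by positivity)).2 fun i => ?_
  refine Fin.lastCases ?_ (fun l => ?_) i
  · rw [relPoly, Fin.snoc_last, Int.norm_eq_abs, Int.cast_natCast, Nat.abs_cast]
    linarith [(Nat.cast_nonneg (den k) : (0 : ℝ) ≤ den k)]
  · rw [relPoly, Fin.snoc_castSucc, Int.norm_eq_abs, Int.cast_neg, abs_neg]
    exact rootRel_abs_le m k l

/-- **The exponent is infinite in degree `m + 1`.** -/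
theorem mahlerExp_number_eq_top (m : ℕ) : mahlerExp (m + 1) (number m) = ⊤ := by
  refine mahlerExp_eq_top_iff.2 fun w => infinite_of_forall_exists fun ε hε => ?_
  obtain ⟨W, hW⟩ := exists_nat_ge w
  obtain ⟨k₀, hk₀⟩ := exists_nat_gt (6 / ε)
  set k := max (k₀ + 1) (3 * W + 2) with hk
  have hq : (1 : ℝ) ≤ den k := Nat.one_le_cast.2 (den_pos k)
  have h4 : 4 ≤ den k :=
    le_trans (show 4 ≤ den 1 by norm_num [den]) (den_mono (show 1 ≤ k by omega))
  have h4' : (4 : ℝ) ≤ den k := by exact_mod_cast h4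
  have hsmall : |polyEval (relPoly m k) (number m)| ≤ 6 / (den k : ℝ) ^ (k + 1) := by
    rw [polyEval_relPoly, abs_mul, Nat.abs_cast, abs_of_pos (base_sub_pos k)]
    refine (mul_le_mul_of_nonneg_left (base_sub_le k) (Nat.cast_nonneg _)).trans (le_of_eq ?_)
    rw [den_succ, pow_succ _ (k + 1)]
    push_cast
    field_simp
  refine ⟨relPoly m k, ⟨?_, hsmall.trans ?_⟩, hsmall.trans_lt ?_⟩
  · rw [polyEval_relPoly]
    exact (mul_pos (by linarith) (base_sub_pos k)).ne'
  · have hne : relPoly m k ≠ 0 := fun h => (den_pos k).ne' (by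
      have := congrFun h (Fin.last _)
      simpa [relPoly] using this)
    have hH := Transference.one_le_norm_intVector hne
    refine le_trans ?_ (Real.rpow_le_rpow_of_exponent_le hH (neg_le_neg hW))
    rw [Real.rpow_neg (norm_nonneg _), Real.rpow_natCast]
    refine le_trans ?_ (inv_anti₀ (pow_pos (zero_lt_one.trans_le hH) _)
      (pow_le_pow_left₀ (norm_nonneg _) (norm_relPoly_le m k) W))
    rw [inv_eq_one_div, div_le_div_iff₀ (by positivity) (by positivity), one_mul]
    calc 6 * (4 * (den k : ℝ)) ^ W ≤ (den k : ℝ) ^ 2 * ((den k : ℝ) * den k) ^ W :=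
          mul_le_mul (by nlinarith) (pow_le_pow_left₀ (by positivity)
            (mul_le_mul_of_nonneg_right h4' (Nat.cast_nonneg _)) W) (by positivity) (by positivity)
      _ = (den k : ℝ) ^ (2 + (W + W)) := by ring
      _ ≤ _ := pow_le_pow_right₀ hq (by omega)
  · have hlt : 6 / ε < (den k : ℝ) :=
      hk₀.trans_le (Nat.cast_le.2 (by have := succ_le_den k; omega))
    rw [div_lt_iff₀ (by positivity)]
    rw [div_lt_iff₀ hε] at hlt
    nlinarith [mul_le_mul_of_nonneg_left (le_self_pow₀ hq (show k + 1 ≠ 0 by omega)) hε.le]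

end FA.LeVeque
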